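/-
Row 38 (RIBET), WALL-p, leaf M6a (C) of helper809's frozen interface `Ribet/H809/M6aSpec.lean`:
`FrickeNormStatement` VERBATIM, by adapting helper376's `wF_heckeNorm` (`Ribet/H376/HeckeFricke.lean`);
the two Hecke norms `S29.H395.heckeNorm` and `S29.H222.heckeNorm` agree by unfolding.  (helper984)
-/
import Fermat.Agent.Ribet.H809.M6aSpec
import Fermat.Agent.Ribet.H376.HeckeFricke

set_option autoImplicit false

noncomputable section

namespace Fermat.Agent.Ribet.H984

open ModularCurve AlgebraicCurve

/-- The two Hecke norms on main agree. -/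
theorem heckeNorm395_eq_heckeNorm222 (N ℓ : ℕ) [NeZero N] [NeZero ℓ]
    (f : modularFunctionFieldBar N) :
    Fermat.Agent.S29.H395.heckeNorm N ℓ f = Fermat.Agent.S29.H222.heckeNorm N ℓ f := rfl

/-- **Leaf M6a (C), VERBATIM**: the Hecke norm commutes with the Fricke involution. -/
theorem frickeNorm : Fermat.Agent.Ribet.H809.M6a.FrickeNormStatement := by
  intro N ℓ _ _ hℓ hℓN f
  rw [heckeNorm395_eq_heckeNorm222, heckeNorm395_eq_heckeNorm222]
  exact Fermat.Agent.Ribet.H376.wF_heckeNorm hℓ hℓN f

end Fermat.Agent.Ribet.H984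

end
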